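import Fermat.Agent.TWPrimes.Line.Facts
import Fermat.Agent.TWPrimes.Count.Residual
import Mathlib.GroupTheory.Sylow

/-!
# Existence of a line with unipotent stabiliser
-/

set_option autoImplicit false
set_option linter.unusedSectionVars false
set_option linter.style.haveILetI false

noncomputable section

open scoped Pointwise

namespace FLTAgent.TWPrimes

open FLTAgent.PoitouTate

local notation "LL" => AlgebraicClosure ℚ
local notation "GG" => (AlgebraicClosure ℚ ≃ₐ[ℚ] AlgebraicClosure ℚ)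
local notation "M2" => Matrix (Fin 2) (Fin 2)

variable {p : ℕ} [Fact p.Prime] {k : Type} [Field k] [Algebra (ZMod p) k]

theorem eq_one_of_pow_p {a : k} (h : a ^ p = 1) : a = 1 := by
  haveI : CharP k p := charP_of_injective_algebraMap (algebraMap (ZMod p) k).injective p
  refine sub_eq_zero.1 (pow_eq_zero_iff (Fact.out : p.Prime).ne_zero |>.1 ?_)
  rw [sub_pow_char, h, one_pow, sub_self]

/-- A matrix of determinant one fixing a vector is unipotent along it. -/
theorem eq_one_add_nilM {v : Fin 2 → k} (hv : v ≠ 0) {M : M2 k} (hd : M.det = 1)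
    (hM : M.mulVec v = v) : ∃ c : k, M = 1 + c • nilM v := by
  have h0 : (M - 1).mulVec v = 0 := by rw [Matrix.sub_mulVec, Matrix.one_mulVec, hM, sub_self]
  have h1 : (M - 1).det = 0 := by
    by_contra hne
    exact hv (Matrix.eq_zero_of_mulVec_eq_zero hne h0)
  rw [Matrix.det_fin_two] at hd h1
  have htr : (M - 1) 0 0 + (M - 1) 1 1 = 0 := by
    simp at h1 ⊢
    linear_combination hd - h1
  obtain ⟨c, hc⟩ := eq_nilM hv htr h0
  exact ⟨c, by rw [← hc, add_sub_cancel]⟩

/-- An element of order dividing `p` which is stable on a line fixes it. -/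
theorem fixed_of_pow_p {M : GL (Fin 2) k} (hM : M ^ p = 1) {v : Fin 2 → k} (hv : v ≠ 0) {a : k}
    (ha : (M : M2 k).mulVec v = a • v) : (M : M2 k).mulVec v = v := by
  have h : ∀ n : ℕ, ((M ^ n : GL (Fin 2) k) : M2 k).mulVec v = a ^ n • v := by
    intro n
    induction n with
    | zero => simp
    | succ n ih =>
      rw [pow_succ, Units.val_mul, ← Matrix.mulVec_mulVec, ha, Matrix.mulVec_smul, ih, smul_smul,
        ← pow_succ']
  have h1 := h p
  rw [hM, Units.val_one, Matrix.one_mulVec] at h1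
  rw [ha, eq_one_of_pow_p (p := p) (smul_left_injective k hv (h1.symm.trans (one_smul k v).symm)),
    one_smul]

theorem det_of_pow_p {M : GL (Fin 2) k} (hM : M ^ p = 1) : (M : M2 k).det = 1 := by
  refine eq_one_of_pow_p (p := p) ?_
  rw [← Matrix.det_pow, ← Units.val_pow_eq_pow_val, hM, Units.val_one, Matrix.det_one]

/-- The matrices stabilising a line. -/
def stabLine (v : Fin 2 → k) : Subgroup (GL (Fin 2) k) where
  carrier := {M | ∃ a : k, (M : M2 k).mulVec v = a • v}
  one_mem' := ⟨1, by rw [Units.val_one, Matrix.one_mulVec, one_smul]⟩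
  mul_mem' := by
    rintro M N ⟨a, ha⟩ ⟨b, hb⟩
    exact ⟨b * a, by rw [Units.val_mul, ← Matrix.mulVec_mulVec, hb, Matrix.mulVec_smul, ha, smul_smul]⟩
  inv_mem' := by
    rintro M ⟨a, ha⟩
    refine ⟨a⁻¹, ?_⟩
    have h1 := congrArg ((M⁻¹ : GL (Fin 2) k).val.mulVec) ha
    rw [Matrix.mulVec_mulVec, Units.inv_mul, Matrix.one_mulVec, Matrix.mulVec_smul] at h1
    rcases eq_or_ne a 0 with rfl | ha0
    · rw [zero_smul] at h1
      rw [h1, smul_zero, Matrix.mulVec_zero]
    · conv_rhs => rw [h1, smul_smul, inv_mul_cancel₀ ha0, one_smul]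

/-- The matrices unipotent along a line. -/
def unipLine (v : Fin 2 → k) : Subgroup (GL (Fin 2) k) where
  carrier := {M | ∃ c : k, (M : M2 k) = 1 + c • nilM v}
  one_mem' := ⟨0, by simp⟩
  mul_mem' := by
    rintro M N ⟨a, ha⟩ ⟨b, hb⟩
    refine ⟨a + b, ?_⟩
    rw [Units.val_mul, ha, hb]
    simp only [add_mul, mul_add, one_mul, mul_one, smul_mul_assoc, mul_smul_comm, nilM_mul_self,
      smul_zero, add_zero, add_smul]
    abel
  inv_mem' := by
    rintro M ⟨a, ha⟩
    refine ⟨-a, Units.inv_eq_of_mul_eq_one_right ?_⟩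
    rw [ha]
    rw [neg_smul]
    simp only [add_mul, mul_add, mul_neg, one_mul, mul_one, smul_mul_assoc, mul_smul_comm,
      nilM_mul_self, smul_zero, neg_zero, add_zero]
    abel

variable [Finite k]

theorem finite_GL : Finite (GL (Fin 2) k) :=
  haveI : Finite (M2 k) := inferInstanceAs (Finite (Fin 2 → Fin 2 → k))
  Finite.of_injective (fun M => (M : M2 k)) Units.val_injective

/-- Lines exist. -/
theorem targetLine : TargetLine := by
  intro p _ k _ _ _ D
  classical
  haveI : Finite (GL (Fin 2) k) := finite_GL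
  haveI : D.rb.ker.FiniteIndex := ⟨by
    rw [Subgroup.index_ker]
    exact Nat.card_pos.ne'⟩
  by_cases hp : p ∣ D.rb.ker.index
  swap
  · exact ⟨{
      H := D.rb.ker
      Pn := D.rb.ker
      finite := inferInstance
      ker_le := le_rfl
      le := le_rfl
      normal := fun h _ u hu => D.rb.normal_ker.conj_mem u hu h
      not_dvd_relIndex := by
        rw [Subgroup.relIndex_self]
        exact (Fact.out : p.Prime).not_dvd_one
      not_dvd_index := hp
      v := Pi.single 0 1
      v_ne := by simp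
      stab := fun h hh => ⟨1, by rw [MonoidHom.mem_ker.1 hh, Units.val_one, Matrix.one_mulVec, one_smul]⟩
      unip := fun u hu => ⟨0, by rw [MonoidHom.mem_ker.1 hu, Units.val_one, zero_smul, add_zero]⟩
      sep := fun g _ a ha _ _ => MonoidHom.mem_ker.1 ha
      big := Or.inl hp }⟩
  -- an element of order `p` and its fixed line
  rw [Subgroup.index_ker] at hp
  obtain ⟨⟨M, u₀, hu₀⟩, hMo⟩ := exists_prime_orderOf_dvd_card' p hp
  have hMp : M ^ p = 1 := by
    have h := pow_orderOf_eq_one (⟨M, u₀, hu₀⟩ : D.rb.range)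
    rw [hMo] at h
    exact congrArg Subtype.val h
  have hM1 : M ≠ 1 := fun h => by
    have h1 : orderOf (⟨M, u₀, hu₀⟩ : D.rb.range) = 1 := orderOf_eq_one_iff.2 (Subtype.ext h)
    exact (Fact.out : p.Prime).ne_one (hMo.symm.trans h1)
  haveI : CharP k p := charP_of_injective_algebraMap (algebraMap (ZMod p) k).injective p
  obtain ⟨v, hv, hMv⟩ : ∃ v : Fin 2 → k, v ≠ 0 ∧ (M : M2 k).mulVec v = v := by
    have h0 : ((M : M2 k) - 1).det = 0 := by
      refine (pow_eq_zero_iff (Fact.out : p.Prime).ne_zero).1 ?_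
      haveI : CharP (M2 k) p := charP_of_injective_algebraMap (algebraMap k (M2 k)).injective p
      rw [← Matrix.det_pow, sub_pow_char_of_commute (p := p) (Commute.one_right _), one_pow,
        ← Units.val_pow_eq_pow_val, hMp, Units.val_one, sub_self, Matrix.det_zero]
    obtain ⟨v, hv, hv'⟩ := Matrix.exists_mulVec_eq_zero_iff.2 h0
    exact ⟨v, hv, by rwa [Matrix.sub_mulVec, Matrix.one_mulVec, sub_eq_zero] at hv'⟩
  obtain ⟨c₀, hc₀⟩ := eq_one_add_nilM hv (det_of_pow_p hMp) hMv
  have hc₀0 : c₀ ≠ 0 := fun h => hM1 (Units.ext (by rw [hc₀, h, zero_smul, add_zero]; rfl))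
  set H := (stabLine v).comap D.rb with hH
  set Pn := (unipLine v).comap D.rb with hPn
  have hker : D.rb.ker ≤ Pn := fun x hx => ⟨0, by
    rw [MonoidHom.mem_ker.1 hx, Units.val_one, zero_smul, add_zero]⟩
  have hle : Pn ≤ H := fun x ⟨c, hc⟩ => ⟨1, by
    rw [hc, Matrix.add_mulVec, Matrix.one_mulVec, Matrix.smul_mulVec, nilM_mulVec_self, smul_zero,
      add_zero, one_smul]⟩
  have hnorm : ∀ h ∈ H, ∀ u ∈ Pn, h * u * h⁻¹ ∈ Pn := by
    intro h hh u hu
    have hui := hle hu
    have hd : ((D.rb u : GL (Fin 2) k) : M2 k).det = 1 := by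
      obtain ⟨c, hc⟩ := hu
      rw [hc, det_one_add_nilM]
    have huv : (D.rb u : M2 k).mulVec v = v := by
      obtain ⟨c, hc⟩ := hu
      rw [hc, Matrix.add_mulVec, Matrix.one_mulVec, Matrix.smul_mulVec, nilM_mulVec_self, smul_zero,
        add_zero]
    obtain ⟨a, ha⟩ := (stabLine v).inv_mem hh
    obtain ⟨b, hb⟩ := hh
    show ∃ c : k, (D.rb (h * u * h⁻¹) : M2 k) = 1 + c • nilM v
    refine eq_one_add_nilM hv ?_ ?_
    · rw [map_mul, map_mul, map_inv, Units.val_mul, Units.val_mul, Matrix.det_mul, Matrix.det_mul,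
        hd, mul_one, ← Matrix.det_mul, Units.mul_inv, Matrix.det_one]
    · rw [map_mul, map_mul, map_inv, Units.val_mul, Units.val_mul, ← Matrix.mulVec_mulVec, ha,
        Matrix.mulVec_smul, ← Matrix.mulVec_mulVec, huv, ← Matrix.mulVec_smul, ← ha,
        Matrix.mulVec_mulVec, Units.mul_inv, Matrix.one_mulVec]
  haveI hHfin : H.FiniteIndex := Subgroup.finiteIndex_of_le (hker.trans hle)
  have hrel : ¬ p ∣ Pn.relIndex H := by
    haveI : Pn.FiniteIndex := Subgroup.finiteIndex_of_le hker
    haveI : (Pn.subgroupOf H).Normal :=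
      ⟨fun u hu h => hnorm h h.2 u hu⟩
    haveI : (Pn.subgroupOf H).FiniteIndex := inferInstance
    intro hdvd
    obtain ⟨x, hx⟩ := exists_prime_orderOf_dvd_card' (G := H ⧸ Pn.subgroupOf H) p hdvd
    obtain ⟨⟨h, hh⟩, rfl⟩ := QuotientGroup.mk_surjective x
    have hxp : h ^ p ∈ Pn := by
      have h1 := pow_orderOf_eq_one ((⟨h, hh⟩ : H) : H ⧸ Pn.subgroupOf H)
      rw [hx, ← QuotientGroup.mk_pow, QuotientGroup.eq_one_iff] at h1
      exact Subgroup.mem_subgroupOf.1 h1
    obtain ⟨c, hc⟩ := hxp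
    rw [map_pow] at hc
    obtain ⟨a, ha⟩ := hh
    have hd : (D.rb h : M2 k).det = 1 := by
      refine eq_one_of_pow_p (p := p) ?_
      rw [← Matrix.det_pow, ← Units.val_pow_eq_pow_val, hc, det_one_add_nilM]
    have hn : ∀ n : ℕ, ((D.rb h ^ n : GL (Fin 2) k) : M2 k).mulVec v = a ^ n • v := by
      intro n
      induction n with
      | zero => simp
      | succ n ih =>
        rw [pow_succ, Units.val_mul, ← Matrix.mulVec_mulVec, ha, Matrix.mulVec_smul, ih, smul_smul,
          ← pow_succ']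
    have hfix := hn p
    rw [hc, Matrix.add_mulVec, Matrix.one_mulVec, Matrix.smul_mulVec, nilM_mulVec_self, smul_zero,
      add_zero] at hfix
    have ha1 := eq_one_of_pow_p (p := p) (smul_left_injective k hv (hfix.symm.trans (one_smul k v).symm))
    have hmem : h ∈ Pn := eq_one_add_nilM hv hd (by rw [ha, ha1, one_smul])
    rw [(QuotientGroup.eq_one_iff _).2 (Subgroup.mem_subgroupOf.2 hmem), orderOf_one] at hx
    exact (Fact.out : p.Prime).ne_one hx.symm
  have hidx : ¬ p ∣ H.index := by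
    let R := D.rb.range
    have hgp : IsPGroup p (Subgroup.zpowers (⟨M, u₀, hu₀⟩ : R)) :=
      IsPGroup.of_card (n := 1) (by rw [Nat.card_zpowers, hMo, pow_one])
    obtain ⟨P, hP⟩ := hgp.exists_le_sylow
    letI : MulAction P (Fin 2 → k) :=
      { smul := fun x w => ((x.1.1 : GL (Fin 2) k) : M2 k).mulVec w
        one_smul := fun w => Matrix.one_mulVec w
        mul_smul := fun x y w => by
          show ((x.1.1 * y.1.1 : GL (Fin 2) k) : M2 k).mulVec w = _
          rw [Units.val_mul, ← Matrix.mulVec_mulVec]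
          rfl }
    haveI : Fintype k := Fintype.ofFinite k
    have hdvd : p ∣ Nat.card (Fin 2 → k) := by
      rw [Nat.card_fun, Nat.card_eq_fintype_card, Nat.card_fin]
      refine dvd_pow ?_ two_ne_zero
      rw [← CharP.cast_eq_zero_iff k p, Nat.cast_card_eq_zero]
    have hz : (0 : Fin 2 → k) ∈ MulAction.fixedPoints P (Fin 2 → k) :=
      fun x => Matrix.mulVec_zero _
    obtain ⟨w, hw, hw0⟩ :=
      P.isPGroup'.exists_fixed_point_of_prime_dvd_card_of_fixed_point (Fin 2 → k) hdvd hz
    have hwM : (M : M2 k).mulVec w = w := hw ⟨_, hP (Subgroup.mem_zpowers _)⟩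
    obtain ⟨a, ha⟩ : ∃ a : k, w = a • v := by
      refine eq_smul_of_lineBr hv ?_
      rw [hc₀, Matrix.add_mulVec, Matrix.one_mulVec, Matrix.smul_mulVec, nilM_mulVec,
        add_eq_left, smul_smul, smul_eq_zero, mul_eq_zero] at hwM
      exact (hwM.resolve_right hv).resolve_left hc₀0
    have ha0 : a ≠ 0 := fun h => hw0 (by rw [ha, h, zero_smul])
    have hPle : (P : Subgroup R) ≤ (stabLine v).subgroupOf R := fun x hx => by
      have h1 : ((x.1 : GL (Fin 2) k) : M2 k).mulVec w = w := hw ⟨x, hx⟩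
      rw [ha, Matrix.mulVec_smul] at h1
      exact ⟨1, by rw [one_smul]; exact smul_right_injective _ ha0 h1⟩
    intro h
    rw [hH, Subgroup.index_comap] at h
    exact P.not_dvd_index (h.trans (Subgroup.index_dvd_of_le hPle))
  exact ⟨{
    H := H
    Pn := Pn
    finite := hHfin
    ker_le := hker
    le := hle
    normal := hnorm
    not_dvd_relIndex := hrel
    not_dvd_index := hidx
    v := v
    v_ne := hv
    stab := fun h hh => hh
    unip := fun u hu => hu
    sep := fun g hg a ha hga hap => by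
      obtain ⟨x, hx⟩ := ha
      obtain ⟨y, hy⟩ := hga
      have h1 := fixed_of_pow_p hap hv hx
      have hap' : D.rb (g⁻¹ * a * g) ^ p = 1 := by
        rw [map_mul, map_mul, map_inv]
        rw [show (D.rb g)⁻¹ * D.rb a * D.rb g = MulAut.conj (D.rb g)⁻¹ (D.rb a) by
          simp, ← map_pow, hap, map_one]
      have h2 := fixed_of_pow_p hap' hv hy
      obtain ⟨c, hc⟩ := eq_one_add_nilM hv (det_of_pow_p hap) h1
      set w := (D.rb g : M2 k).mulVec v with hwdef
      have h3 : (D.rb a : M2 k).mulVec w = w := by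
        rw [map_mul, map_mul, map_inv, Units.val_mul, Units.val_mul, ← Matrix.mulVec_mulVec,
          ← hwdef] at h2
        have h4 := congrArg ((D.rb g : M2 k).mulVec) h2
        rwa [← hwdef, ← Matrix.mulVec_mulVec, Matrix.mulVec_mulVec, Units.mul_inv, Matrix.one_mulVec]
          at h4
      rw [hc, Matrix.add_mulVec, Matrix.one_mulVec, Matrix.smul_mulVec, nilM_mulVec, add_eq_left,
        smul_smul, smul_eq_zero, mul_eq_zero] at h3
      rcases h3 with (h3 | h3) | h3
      · exact Units.ext (by rw [hc, h3, zero_smul, add_zero]; rfl)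
      · exact absurd (eq_smul_of_lineBr hv h3) hg
      · exact absurd h3 hv
    big := Or.inr ⟨u₀, ⟨c₀, by rw [hu₀, hc₀]⟩, by rw [hu₀]; exact hM1⟩ }⟩

end FLTAgent.TWPrimes
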