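import Fermat.Agent.TWPrimes.Euler.Interface

/-!
# The three steps of the adjoint representation at a line
-/

set_option autoImplicit false
set_option linter.unusedSectionVars false
set_option linter.style.haveILetI false

noncomputable section

open scoped Pointwise

namespace FLTAgent.TWPrimes

open FLTAgent.PoitouTate

local notation "LL" => AlgebraicClosure ℚ
local notation "GG" => (AlgebraicClosure ℚ ≃ₐ[ℚ] AlgebraicClosure ℚ)

variable {p : ℕ} [Fact p.Prime] {k : Type} [Field k] [Algebra (ZMod p) k]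

/-- The coordinate vanishing exactly on the line of `v`. -/
def lineBr (v w : Fin 2 → k) : k := v 0 * w 1 - v 1 * w 0

theorem nilM_mulVec (v w : Fin 2 → k) : (nilM v).mulVec w = lineBr v w • v := by
  ext i; fin_cases i <;> simp [nilM, lineBr, Matrix.mulVec, dotProduct, Fin.sum_univ_two] <;> ring

theorem lineBr_self (v : Fin 2 → k) : lineBr v v = 0 := by simp [lineBr, mul_comm]

theorem nilM_mulVec_self (v : Fin 2 → k) : (nilM v).mulVec v = 0 := by
  rw [nilM_mulVec, lineBr_self, zero_smul]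

theorem nilM_mul_self (v : Fin 2 → k) : nilM v * nilM v = 0 := by
  ext i j; fin_cases i <;> fin_cases j <;> simp [nilM, Matrix.mul_apply] <;> ring

theorem det_one_add_nilM (v : Fin 2 → k) (c : k) : (1 + c • nilM v).det = 1 := by
  simp [nilM, Matrix.det_fin_two]; ring

theorem trace_nilM_mul (v : Fin 2 → k) (A : Matrix (Fin 2) (Fin 2) k) :
    Matrix.trace (nilM v * A) = lineBr v (A.mulVec v) := by
  simp [nilM, lineBr, Matrix.trace_fin_two, Matrix.mulVec, Matrix.vecMul,
    dotProduct, Fin.sum_univ_two]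
  ring

theorem eq_smul_of_lineBr {v w : Fin 2 → k} (hv : v ≠ 0) (h : lineBr v w = 0) :
    ∃ a : k, w = a • v := by
  rw [lineBr, sub_eq_zero] at h
  by_cases h0 : v 0 = 0
  · have h1 : v 1 ≠ 0 := fun h1 => hv (funext (Fin.forall_fin_two.2 ⟨h0, h1⟩))
    refine ⟨w 1 / v 1, funext (Fin.forall_fin_two.2 ⟨?_, ?_⟩)⟩
    · have h2 : w 0 = 0 := by
        rw [h0, zero_mul, eq_comm, mul_eq_zero] at h
        exact h.resolve_left h1
      simp [h0, h2]
    · simp [h1]
  · refine ⟨w 0 / v 0, funext (Fin.forall_fin_two.2 ⟨?_, ?_⟩)⟩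
    · simp [h0]
    · simp only [Pi.smul_apply, smul_eq_mul]
      field_simp
      linear_combination h

theorem lineBr_smul_self (v : Fin 2 → k) (a : k) : lineBr v (a • v) = 0 := by
  simp [lineBr]; ring

theorem exists_lineBr {v : Fin 2 → k} (hv : v ≠ 0) : ∃ w, lineBr v w ≠ 0 := by
  by_cases h0 : v 0 = 0
  · have h1 : v 1 ≠ 0 := fun h1 => hv (funext (Fin.forall_fin_two.2 ⟨h0, h1⟩))
    exact ⟨![1, 0], by simp [lineBr, h1]⟩
  · exact ⟨![0, 1], by simp [lineBr, h0]⟩

/-- A trace zero matrix killing `v` is a multiple of `nilM v`. -/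
theorem eq_nilM {v : Fin 2 → k} (hv : v ≠ 0) {E : Matrix (Fin 2) (Fin 2) k}
    (htr : E 0 0 + E 1 1 = 0) (hE : E.mulVec v = 0) : ∃ c : k, E = c • nilM v := by
  have e0 : E 0 0 * v 0 + E 0 1 * v 1 = 0 := by
    simpa [Matrix.mulVec, dotProduct, Fin.sum_univ_two] using congrFun hE 0
  have e1 : E 1 0 * v 0 + E 1 1 * v 1 = 0 := by
    simpa [Matrix.mulVec, dotProduct, Fin.sum_univ_two] using congrFun hE 1
  by_cases h0 : v 0 = 0
  · have h1 : v 1 ≠ 0 := fun h1 => hv (funext (Fin.forall_fin_two.2 ⟨h0, h1⟩))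
    rw [h0, mul_zero, zero_add, mul_eq_zero] at e0 e1
    have a := e0.resolve_right h1
    have b := e1.resolve_right h1
    refine ⟨-E 1 0 / v 1 ^ 2, Matrix.ext fun i j => ?_⟩
    fin_cases i <;> fin_cases j <;> simp [nilM, h0]
    · linear_combination htr - b
    · exact a
    · field_simp
    · exact b
  · refine ⟨E 0 1 / v 0 ^ 2, Matrix.ext fun i j => ?_⟩
    fin_cases i <;> fin_cases j <;> simp [nilM] <;> field_simp
    · linear_combination e0
    · linear_combination v 0 * e1 + (-v 0 * v 1) * htr + v 1 * e0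
    · linear_combination v 0 * htr - e0

theorem mem_mid {v : Fin 2 → k} (hv : v ≠ 0) {A : W k} :
    A ∈ mid p v ↔ ∃ a : k, A.1.mulVec v = a • v := by
  show Matrix.trace (nilM v * A.1) = 0 ↔ _
  rw [trace_nilM_mul]
  exact ⟨fun h => eq_smul_of_lineBr hv h, fun ⟨a, ha⟩ => by rw [ha, lineBr_smul_self]⟩

theorem mem_low {v : Fin 2 → k} (hv : v ≠ 0) {A : W k} :
    A ∈ low p v ↔ A.1.mulVec v = 0 := by
  rw [low, Submodule.restrictScalars_mem, Submodule.mem_span_singleton]
  refine ⟨fun ⟨c, hc⟩ => ?_, fun h => ?_⟩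
  · rw [← hc]
    show (c • nilM v).mulVec v = 0
    rw [Matrix.smul_mulVec, nilM_mulVec_self, smul_zero]
  · obtain ⟨c, hc⟩ := eq_nilM hv (W_trace A) h
    exact ⟨c, Subtype.ext hc.symm⟩

variable [Finite k]

/-- The facts on the three steps. -/
theorem targetLineFacts : TargetLineFacts := by
  intro p _ k _ _ _ D l
  have hv := l.v_ne
  have hinv : ∀ h : GG, ∀ a : k, (D.rb h : Matrix (Fin 2) (Fin 2) k).mulVec l.v = a • l.v →
      ((D.rb h)⁻¹ : GL (Fin 2) k).val.mulVec l.v = a⁻¹ • l.v := fun h a ha => by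
    have h1 := congrArg (((D.rb h)⁻¹ : GL (Fin 2) k).val.mulVec) ha
    rw [Matrix.mulVec_mulVec, Units.inv_mul, Matrix.one_mulVec, Matrix.mulVec_smul] at h1
    have ha0 : a ≠ 0 := fun h0 => hv (by rw [h1, h0, zero_smul])
    conv_rhs => rw [h1, smul_smul, inv_mul_cancel₀ ha0, one_smul]
  have hom1 : ∀ u ∈ l.Pn, om p u = 1 := fun u hu => by
    obtain ⟨c, hc⟩ := l.unip u hu
    have h := D.det_cyclo u
    rw [hc, det_one_add_nilM] at h
    exact ((algebraMap (ZMod p) k).injective (h.symm.trans (map_one _).symm))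
  have hact : ∀ (e : ℕ), ∀ u ∈ l.Pn, ∀ A : W k, ∃ c : k,
      (D.rb u : Matrix (Fin 2) (Fin 2) k) = 1 + c • nilM l.v ∧
      (ad D e u A - A).1.mulVec l.v = (c * lineBr l.v (A.1.mulVec l.v)) • l.v := fun e u hu A => by
    obtain ⟨c, hc⟩ := l.unip u hu
    refine ⟨c, hc, ?_⟩
    have hu1 := hinv u 1 (by rw [hc, Matrix.add_mulVec, Matrix.one_mulVec, Matrix.smul_mulVec,
      nilM_mulVec_self, smul_zero, add_zero, one_smul])
    rw [inv_one, one_smul] at hu1
    rw [Submodule.coe_sub, ad_coe, adM, hom1 u hu, one_pow, map_one, one_smul, Matrix.sub_mulVec,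
      ← Matrix.mulVec_mulVec, hu1, ← Matrix.mulVec_mulVec, hc, Matrix.add_mulVec,
      Matrix.one_mulVec, Matrix.smul_mulVec, nilM_mulVec, add_sub_cancel_left, smul_smul]
  have h2 := two_ne_zero' D
  refine
    { low_le := fun A hA => (mem_mid hv).2 ⟨0, by rw [(mem_low hv).1 hA, zero_smul]⟩
      low_stable := fun e h hh A hA => ?_
      mid_stable := fun e h hh A hA => ?_
      om_one := hom1
      low_fixed := fun e u hu A hA => ?_
      mid_fixed := fun e u hu A hA => ?_
      top_fixed := fun e u hu A => ?_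
      mid_orth := fun B => ?_
      low_orth := fun A => ?_
      fixed_mem_mid := fun u hu hu1 A hA => ?_
      fixed_mem_low := fun u hu hu1 A hAm hA => ?_ }
  · obtain ⟨a, ha⟩ := l.stab h hh
    rw [mem_low hv, ad_coe, adM, Matrix.smul_mulVec, ← Matrix.mulVec_mulVec, hinv h a ha,
      Matrix.mulVec_smul, ← Matrix.mulVec_mulVec, (mem_low hv).1 hA, Matrix.mulVec_zero,
      smul_zero, smul_zero]
  · obtain ⟨a, ha⟩ := l.stab h hh
    obtain ⟨b, hb⟩ := (mem_mid hv).1 hA
    refine (mem_mid hv).2 ⟨algebraMap (ZMod p) k (om p h ^ e) * (a⁻¹ * (b * a)), ?_⟩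
    rw [ad_coe, adM, Matrix.smul_mulVec, ← Matrix.mulVec_mulVec, hinv h a ha,
      Matrix.mulVec_smul, ← Matrix.mulVec_mulVec, hb, Matrix.mulVec_smul, ha, smul_smul, smul_smul,
      smul_smul]
    congr 1
    ring
  · obtain ⟨c, hc⟩ := l.unip u hu
    obtain ⟨t, ht⟩ := Submodule.mem_span_singleton.1 (Submodule.restrictScalars_mem _ _ _ |>.1 hA)
    refine Subtype.ext ?_
    rw [ad_coe, adM, hom1 u hu, one_pow, map_one, one_smul, ← ht]
    show (D.rb u : Matrix (Fin 2) (Fin 2) k) * (t • nilM l.v) *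
      ((D.rb u)⁻¹ : GL (Fin 2) k).val = t • nilM l.v
    have hcomm : (D.rb u : Matrix (Fin 2) (Fin 2) k) * (t • nilM l.v) =
        (t • nilM l.v) * (D.rb u : Matrix (Fin 2) (Fin 2) k) := by
      rw [hc]
      simp only [add_mul, mul_add, one_mul, mul_one, smul_mul_assoc, mul_smul_comm, nilM_mul_self,
        smul_zero, add_zero]
    rw [hcomm, Matrix.mul_assoc, Units.mul_inv, Matrix.mul_one]
  · obtain ⟨c, -, h⟩ := hact e u hu A
    obtain ⟨a, ha⟩ := (mem_mid hv).1 hA
    rw [mem_low hv, h, ha, lineBr_smul_self, mul_zero, zero_smul]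
  · obtain ⟨c, -, h⟩ := hact e u hu A
    exact (mem_mid hv).2 ⟨_, h⟩
  · refine ⟨fun hB A hA => ?_, fun h => ?_⟩
    · obtain ⟨t, rfl⟩ := Submodule.mem_span_singleton.1 (Submodule.restrictScalars_mem _ _ _ |>.1 hA)
      rw [adPair_apply, SetLike.val_smul, mul_smul_comm, Matrix.trace_smul, Matrix.trace_mul_comm,
        show (nilW l.v).1 = nilM l.v from rfl, show Matrix.trace (nilM l.v * B.1) = 0 from hB, smul_zero]
      show Algebra.trace (ZMod p) k _ = 0
      exact map_zero _
    · show Matrix.trace (nilM l.v * B.1) = 0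
      refine eq_zero_of_trace (p := p) fun t => ?_
      have h1 := h (t • nilW l.v) ((Submodule.restrictScalars_mem _ _ _).2
        (Submodule.mem_span_singleton.2 ⟨t, rfl⟩))
      rwa [adPair_apply, SetLike.val_smul, mul_smul_comm, Matrix.trace_smul, Matrix.trace_mul_comm,
        smul_eq_mul, mul_comm] at h1
  · refine ⟨fun hA B hB => ?_, fun h => ?_⟩
    · obtain ⟨t, rfl⟩ := Submodule.mem_span_singleton.1 (Submodule.restrictScalars_mem _ _ _ |>.1 hA)
      rw [adPair_apply, SetLike.val_smul, mul_smul_comm, Matrix.trace_smul, Matrix.trace_mul_comm,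
        show (nilW l.v).1 = nilM l.v from rfl, show Matrix.trace (nilM l.v * B.1) = 0 from hB, smul_zero, map_zero]
    · have htr : ∀ B ∈ mid p l.v, Matrix.trace (B.1 * A.1) = 0 := fun B hB =>
        eq_zero_of_trace (p := p) fun t => by
          have h1 := h (t • B) (by
            obtain ⟨a, ha⟩ := (mem_mid hv).1 hB
            exact (mem_mid hv).2 ⟨t * a, by rw [SetLike.val_smul, Matrix.smul_mulVec, ha, smul_smul]⟩)
          rwa [adPair_apply, SetLike.val_smul, smul_mul_assoc, Matrix.trace_smul, smul_eq_mul,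
            mul_comm] at h1
      have h0 := htr (nilW l.v) ((mem_mid hv).2 ⟨0, by
        rw [zero_smul]; exact nilM_mulVec_self l.v⟩)
      rw [show (nilW l.v).1 = nilM l.v from rfl, trace_nilM_mul] at h0
      obtain ⟨a, ha⟩ := eq_smul_of_lineBr hv h0
      rw [mem_low hv, ha]
      have hA := W_trace A
      have e0 : A.1 0 0 * l.v 0 + A.1 0 1 * l.v 1 = a * l.v 0 := by
        simpa [Matrix.mulVec, dotProduct, Fin.sum_univ_two] using congrFun ha 0
      have e1 : A.1 1 0 * l.v 0 + A.1 1 1 * l.v 1 = a * l.v 1 := by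
        simpa [Matrix.mulVec, dotProduct, Fin.sum_univ_two] using congrFun ha 1
      suffices ha0 : a = 0 by rw [ha0, zero_smul]
      by_cases h00 : l.v 0 = 0
      · have h1 : l.v 1 ≠ 0 := fun h1 => hv (funext (Fin.forall_fin_two.2 ⟨h00, h1⟩))
        let B : W k := ⟨!![-1, 0; 0, 1], LinearMap.mem_ker.2 (by simp [Matrix.trace_fin_two])⟩
        have h3 := htr B ((mem_mid hv).2 ⟨1, funext (Fin.forall_fin_two.2
          ⟨by simp [B, h00, Matrix.mulVec, dotProduct, Fin.sum_univ_two],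
            by simp [B, Matrix.mulVec, dotProduct, Fin.sum_univ_two]⟩)⟩)
        simp [B, Matrix.trace_fin_two, Matrix.vecMul, dotProduct, Fin.sum_univ_two] at h3
        rw [h00, mul_zero, zero_add] at e1
        have h4 : A.1 1 1 = a := mul_right_cancel₀ h1 e1
        exact (mul_eq_zero.1 (show (2 : k) * a = 0 by linear_combination h3 + hA - 2 * h4)).resolve_left h2
      · let B : W k := ⟨!![1, 0; 2 * l.v 1 / l.v 0, -1],
          LinearMap.mem_ker.2 (by simp [Matrix.trace_fin_two])⟩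
        have h3 := htr B ((mem_mid hv).2 ⟨1, funext (Fin.forall_fin_two.2
          ⟨by simp [B, Matrix.mulVec, dotProduct, Fin.sum_univ_two],
            by simp [B, h00, Matrix.mulVec, dotProduct, Fin.sum_univ_two]; ring⟩)⟩)
        simp [B, Matrix.trace_fin_two, Matrix.vecMul, dotProduct, Fin.sum_univ_two] at h3
        field_simp at h3
        have h5 : (2 : k) * a * l.v 0 = 0 := by linear_combination h3 - 2 * e0 + (l.v 0) * hA
        exact (mul_eq_zero.1 ((mul_eq_zero.1 h5).resolve_right h00)).resolve_left h2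
  · obtain ⟨c, hc, h⟩ := hact 0 u hu A
    rw [hA, sub_self, ZeroMemClass.coe_zero, Matrix.zero_mulVec, eq_comm, smul_eq_zero,
      mul_eq_zero] at h
    rcases h with (h | h) | h
    · exact absurd (Units.ext (by rw [hc, h, zero_smul, add_zero]; rfl)) hu1
    · exact (mem_mid hv).2 (eq_smul_of_lineBr hv h)
    · exact absurd h hv
  · obtain ⟨c, hc⟩ := l.unip u hu
    have hc0 : c ≠ 0 := fun h => hu1 (Units.ext (by rw [hc, h, zero_smul, add_zero]; rfl))
    obtain ⟨a, ha⟩ := (mem_mid hv).1 hAm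
    have h1 : (D.rb u : Matrix (Fin 2) (Fin 2) k) * A.1 = A.1 * D.rb u := by
      have h := congrArg Subtype.val hA
      rw [ad_coe, adM_zero] at h
      conv_rhs => rw [← h, Matrix.mul_assoc, Units.inv_mul, Matrix.mul_one]
    rw [hc, add_mul, mul_add, one_mul, mul_one, add_right_inj, smul_mul_assoc, mul_smul_comm] at h1
    have h3 : nilM l.v * A.1 = A.1 * nilM l.v := smul_right_injective _ hc0 h1
    obtain ⟨w, hw⟩ := exists_lineBr hv
    have h4 := congrArg (fun M : Matrix (Fin 2) (Fin 2) k => lineBr w (M.mulVec w)) h3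
    simp only [← Matrix.mulVec_mulVec, nilM_mulVec, Matrix.mulVec_smul, ha, smul_smul] at h4
    have e0 : A.1 0 0 * l.v 0 + A.1 0 1 * l.v 1 = a * l.v 0 := by
      simpa [Matrix.mulVec, dotProduct, Fin.sum_univ_two] using congrFun ha 0
    have e1 : A.1 1 0 * l.v 0 + A.1 1 1 * l.v 1 = a * l.v 1 := by
      simpa [Matrix.mulVec, dotProduct, Fin.sum_univ_two] using congrFun ha 1
    have hb : lineBr l.v (A.1.mulVec w) = -a * lineBr l.v w := by
      simp [lineBr, Matrix.mulVec, dotProduct, Fin.sum_univ_two]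
      linear_combination w 0 * e1 - w 1 * e0 + (l.v 0 * w 1 - l.v 1 * w 0) * W_trace A
    rw [hb] at h4
    simp [lineBr] at h4
    have hw' : l.v 0 * w 1 - l.v 1 * w 0 ≠ 0 := hw
    have h5 : (2 : k) * a * ((l.v 0 * w 1 - l.v 1 * w 0) * (l.v 0 * w 1 - l.v 1 * w 0)) = 0 := by
      linear_combination h4
    rw [mem_low hv, ha]
    rw [(mul_eq_zero.1 ((mul_eq_zero.1 h5).resolve_right (mul_self_ne_zero.2 hw'))).resolve_left h2,
      zero_smul]

end FLTAgent.TWPrimes
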